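import Fermat.Agent.DS.C.U.Bridge

/-!
# DS-C row C1b: NONVANISHING on `ℍ` of the differences of the Fricke family

* `dscu_F_inj` / `dscu_F_sub_ne_zero` : `F_{α,β}(z) ≠ F_{α',β'}(z)` unless `(α,β) ≡ ± (α',β') mod ℤ²`.
* `dscu_L_inj` / `dscu_L_sub_ne_zero` : level `M` family `dscpL M r s`, `(r,s) ≢ ± (r',s') mod M`.
* `dscu_X_sub_ne_zero` : `dscpX M a τ ≠ dscpX M b τ` for `a ≠ ± b`, `a, b ≠ 0`.
-/

set_option autoImplicit false

open UpperHalfPlane hiding I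
open Complex Filter Topology
open scoped Real

noncomputable section

namespace Fermat.Agent.DS

/-- `α z + β ∈ ℤ z + ℤ` iff `α, β ∈ ℤ` (`α, β` real). -/
theorem dscu_mem_lattice_iff (z : ℍ) (α β : ℝ) :
    (α : ℂ) * z + β ∈ (dsw_pair z).lattice ↔ (∃ m : ℤ, α = m) ∧ ∃ n : ℤ, β = n := by
  rw [dsw_mem_lattice]
  constructor
  · rintro ⟨m, n, h⟩
    have him := congrArg Complex.im h
    simp only [Complex.add_im, Complex.mul_im, Complex.ofReal_re, Complex.ofReal_im,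
      Complex.intCast_re, Complex.intCast_im, zero_mul, add_zero, UpperHalfPlane.coe_im] at him
    have hz : z.im ≠ 0 := z.im_ne_zero
    have hα : α = m := mul_right_cancel₀ hz him
    have hre := congrArg Complex.re h
    simp only [Complex.add_re, Complex.mul_re, Complex.ofReal_re, Complex.ofReal_im,
      Complex.intCast_re, Complex.intCast_im, zero_mul, sub_zero, UpperHalfPlane.coe_re] at hre
    rw [hα] at hre
    exact ⟨⟨m, hα⟩, ⟨n, by linarith⟩⟩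
  · rintro ⟨⟨m, hm⟩, ⟨n, hn⟩⟩
    exact ⟨m, n, by rw [hm, hn]; push_cast; ring⟩

/-- **Nonvanishing of the differences of the Fricke functions on `ℍ`.** -/
theorem dscu_F_inj {α β α' β' : ℝ} (h : DscpNonInt α β) (h' : DscpNonInt α' β') (z : ℍ)
    (heq : dscpF α β z = dscpF α' β' z) :
    ((∃ m : ℤ, α - α' = m) ∧ ∃ n : ℤ, β - β' = n) ∨
      ((∃ m : ℤ, α + α' = m) ∧ ∃ n : ℤ, β + β' = n) := by
  have h₁ : (α : ℂ) * z + β ∉ (dsw_pair z).lattice := fun hm =>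
    h ((dscu_mem_lattice_iff z α β).mp hm)
  have h₂ : (α' : ℂ) * z + β' ∉ (dsw_pair z).lattice := fun hm =>
    h' ((dscu_mem_lattice_iff z α' β').mp hm)
  rcases dscu_P_inj z h₁ h₂ heq with hm | hm
  · left
    rw [← dscu_mem_lattice_iff z]
    convert hm using 1
    push_cast; ring
  · right
    rw [← dscu_mem_lattice_iff z]
    convert hm using 1
    push_cast; ring

theorem dscu_F_sub_ne_zero {α β α' β' : ℝ} (h : DscpNonInt α β) (h' : DscpNonInt α' β')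
    (hne : ¬ ((∃ m : ℤ, α - α' = m) ∧ ∃ n : ℤ, β - β' = n))
    (hne' : ¬ ((∃ m : ℤ, α + α' = m) ∧ ∃ n : ℤ, β + β' = n)) (z : ℍ) :
    dscpF α β z - dscpF α' β' z ≠ 0 := by
  intro h0
  rcases dscu_F_inj h h' z (sub_eq_zero.mp h0) with h1 | h1
  · exact hne h1
  · exact hne' h1

theorem dscu_div_eq_int_iff (M : ℕ) [NeZero M] (r : ℤ) :
    (∃ m : ℤ, (r : ℝ) / M = m) ↔ (r : ZMod M) = 0 := by
  have hM : (M : ℝ) ≠ 0 := Nat.cast_ne_zero.mpr (NeZero.ne M)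
  rw [ZMod.intCast_zmod_eq_zero_iff_dvd]
  constructor
  · rintro ⟨m, hm⟩
    refine ⟨m, ?_⟩
    have : (r : ℝ) = (M : ℝ) * m := by field_simp at hm; linarith
    exact_mod_cast this
  · rintro ⟨m, rfl⟩
    exact ⟨m, by push_cast; field_simp⟩

theorem dscu_nonInt_of_adm (M : ℕ) [NeZero M] {r s : ℤ} (h : DscpAdm M r s) :
    DscpNonInt ((r : ℝ) / M) ((s : ℝ) / M) := by
  intro hh
  exact h ⟨(dscu_div_eq_int_iff M r).mp hh.1, (dscu_div_eq_int_iff M s).mp hh.2⟩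

/-- **Nonvanishing on `ℍ` for the level `M` family** (`row C1b`): if `L_{(r,s)}(τ) = L_{(r',s')}(τ)`
for ONE `τ ∈ ℍ` then `(r,s) = ± (r',s')` in `(ℤ/M)²`. -/
theorem dscu_L_inj (M : ℕ) [NeZero M] {r s r' s' : ℤ} (h : DscpAdm M r s) (h' : DscpAdm M r' s')
    (τ : ℍ) (heq : dscpL M r s τ = dscpL M r' s' τ) :
    ((r : ZMod M) = r' ∧ (s : ZMod M) = s') ∨ ((r : ZMod M) = -r' ∧ (s : ZMod M) = -s') := by
  rcases dscu_F_inj (dscu_nonInt_of_adm M h) (dscu_nonInt_of_adm M h') (dscpMul M τ) heq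
    with ⟨h1, h2⟩ | ⟨h1, h2⟩
  · left
    have e1 : (r : ℝ) / M - (r' : ℝ) / M = ((r - r' : ℤ) : ℝ) / M := by push_cast; ring
    have e2 : (s : ℝ) / M - (s' : ℝ) / M = ((s - s' : ℤ) : ℝ) / M := by push_cast; ring
    rw [e1] at h1; rw [e2] at h2
    have a1 := (dscu_div_eq_int_iff M _).mp h1
    have a2 := (dscu_div_eq_int_iff M _).mp h2
    push_cast at a1 a2
    exact ⟨sub_eq_zero.mp a1, sub_eq_zero.mp a2⟩
  · right
    have e1 : (r : ℝ) / M + (r' : ℝ) / M = ((r + r' : ℤ) : ℝ) / M := by push_cast; ring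
    have e2 : (s : ℝ) / M + (s' : ℝ) / M = ((s + s' : ℤ) : ℝ) / M := by push_cast; ring
    rw [e1] at h1; rw [e2] at h2
    have a1 := (dscu_div_eq_int_iff M _).mp h1
    have a2 := (dscu_div_eq_int_iff M _).mp h2
    push_cast at a1 a2
    exact ⟨eq_neg_of_add_eq_zero_left a1, eq_neg_of_add_eq_zero_left a2⟩

theorem dscu_L_sub_ne_zero (M : ℕ) [NeZero M] {r s r' s' : ℤ} (h : DscpAdm M r s)
    (h' : DscpAdm M r' s') (hne : ¬ ((r : ZMod M) = r' ∧ (s : ZMod M) = s'))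
    (hne' : ¬ ((r : ZMod M) = -r' ∧ (s : ZMod M) = -s')) (τ : ℍ) :
    dscpL M r s τ - dscpL M r' s' τ ≠ 0 := by
  intro h0
  rcases dscu_L_inj M h h' τ (sub_eq_zero.mp h0) with h1 | h1
  · exact hne h1
  · exact hne' h1

/-- the functions `X_a` : `X_a(τ) ≠ X_b(τ)` for `a ≠ ± b`, `a, b ≠ 0`, every `τ ∈ ℍ`. -/
theorem dscu_X_sub_ne_zero (M : ℕ) [NeZero M] {a b : ZMod M} (ha : a ≠ 0) (hb : b ≠ 0)
    (hab : a ≠ b) (hab' : a ≠ -b) (τ : ℍ) : dscpX M a τ - dscpX M b τ ≠ 0 := by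
  have hcast : ∀ c : ZMod M, (((c.val : ℕ) : ℤ) : ZMod M) = c := fun c => by
    simp
  have hA : ∀ c : ZMod M, c ≠ 0 → DscpAdm M (c.val : ℤ) 0 := by
    intro c hc hh
    exact hc (by rw [← hcast c]; exact hh.1)
  refine dscu_L_sub_ne_zero M (hA a ha) (hA b hb) ?_ ?_ τ
  · rintro ⟨h1, -⟩
    rw [hcast, hcast] at h1
    exact hab h1
  · rintro ⟨h1, -⟩
    rw [hcast, hcast] at h1
    exact hab' h1

/-- the shape consumed by row C1c (helper16's `Br/Spec.lean`, verbatim). -/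
theorem dscp_X_ne (M : ℕ) [NeZero M] {a b : ZMod M} (ha : a ≠ 0) (hb : b ≠ 0) (h1 : a ≠ b)
    (h2 : a ≠ -b) (τ : ℍ) : dscpX M a τ ≠ dscpX M b τ := fun h =>
  dscu_X_sub_ne_zero M ha hb h1 h2 τ (sub_eq_zero.mpr h)

end Fermat.Agent.DS
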