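import Mathlib

/-!
# Program DS (S48), package (C), row C1b-ORD: orders and leading coefficients at `∞` of the
conjugates `℘_v` of the Fricke family, as a purely FORMAL statement.  (helper2)

`t = q^{1/M}` is the variable, `ζ` an `M`-th root of unity in a commutative ring `R`.  For
`v = (r, s) ∈ (ℤ/M)²` the `t`-expansion of `(2πi)⁻² ℘((r·Mτ + s)/M ; ⟨1, Mτ⟩)` is, up to an additive
constant common to all `v`,

  `[r = 0] ζ^s/(1 - ζ^s)² + ∑_{n ≥ 1} (∑_{e ∣ n, n/e ≡ r} e ζ^{s e} + ∑_{e ∣ n, n/e ≡ -r} e ζ^{-s e}) tⁿ`.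

* `dscuoX M ζ r s` : the series without constant term (for `s = 0` it is `dscX M r` of `DS/C/Defs`:
  `dscuoX_zero_coeff`); `dscuoC M ζ s = ζ^s/(1-ζ^s)²`; `dscuoP M ζ r s = [r = 0] C c_s + X_{(r,s)}`;
* `dscuoAbs M r = min r.val (M - r.val)` : the distance of `r` to `0` in `ℤ/M`;
* `dscuoX_coeff_of_lt`, `dscuoX_coeff_abs` : order and leading coefficient of `X_v`;
* hypotheses: `hζ : ζ ^ M = 1`, `hunit : ∀ j : ZMod M, j ≠ 0 → IsUnit (1 - ζ ^ j.val)`; the latter holds
  for a primitive `M`-th root of unity in a field (`dscuo_hunit_of_field`), in a domain where `M` is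
  invertible (`dscuo_hunit_of_domain`), and whenever `∏_{0<k<M} (1 - ζ^k)` is a unit
  (`dscuo_hunit_of_prod`); it is stable under ring homomorphisms (reduction mod `p ∤ M`);
* MAIN: for `v = (r,s)`, `v' = (r',s')` both `≠ 0`, `v ≠ ±v'`:
  `dscuo_order` (coefficients of `P_v - P_{v'}` below `min(|r|,|r'|)` vanish; no hypothesis),
  `dscuo_lead` (the coefficient at `min(|r|,|r'|)` is a UNIT), `dscuo_order_eq` (`PowerSeries.order`);
  `dscuo_lead_smul`, `dscuo_order_smul_eq` : the case `v = aξ`, `v' = bξ`, `ξ` of exact order `M`,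
  `a, b ≠ 0`, `a ≠ ±b` (the input `ord = min(|a r_ξ|, |b r_ξ|)` of Igusa for `X₁(M)`);
  `dscuoP_neg` : `P_{-v} = P_v`.
-/

set_option autoImplicit false
set_option linter.unusedSectionVars false

namespace Fermat.Agent.DS

open PowerSeries

variable {R : Type*} [CommRing R] (M : ℕ) [NeZero M] (ζ : R)

/-- the distance of `r` to `0` in `ℤ/M`. -/
def dscuoAbs (r : ZMod M) : ℕ := min r.val (M - r.val)

/-- the formal conjugate `X_{(r,s)}` (without constant term) in the variable `t = q^{1/M}`. -/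
noncomputable def dscuoX (r s : ZMod M) : PowerSeries R :=
  PowerSeries.mk fun n => ∑ e ∈ n.divisors,
    ((if ((n / e : ℕ) : ZMod M) = r then (e : R) * ζ ^ (s.val * e) else 0) +
      (if ((n / e : ℕ) : ZMod M) = -r then (e : R) * ζ ^ ((-s).val * e) else 0))

theorem dscuoX_coeff (r s : ZMod M) (n : ℕ) :
    PowerSeries.coeff n (dscuoX M ζ r s) = ∑ e ∈ n.divisors,
    ((if ((n / e : ℕ) : ZMod M) = r then (e : R) * ζ ^ (s.val * e) else 0) +
      (if ((n / e : ℕ) : ZMod M) = -r then (e : R) * ζ ^ ((-s).val * e) else 0)) := by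
  rw [dscuoX, PowerSeries.coeff_mk]

/-- evenness: `X_{-v} = X_v`. -/
theorem dscuoX_neg (r s : ZMod M) : dscuoX M ζ (-r) (-s) = dscuoX M ζ r s := by
  ext n
  rw [dscuoX_coeff, dscuoX_coeff]
  apply Finset.sum_congr rfl
  intro e _
  rw [neg_neg, neg_neg, add_comm]

/-- a positive integer congruent to `r` is at least `r.val`, and at least `M` if `r = 0`. -/
theorem dscuo_le_of_cast_eq {r : ZMod M} {f : ℕ} (hf : 0 < f) (h : (f : ZMod M) = r) :
    r.val ≤ f ∧ (r = 0 → M ≤ f) := by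
  constructor
  · rw [← h, ZMod.val_natCast]
    exact Nat.mod_le _ _
  · intro h0
    rw [h0, ZMod.natCast_eq_zero_iff] at h
    exact Nat.le_of_dvd hf h

/-- the smallest positive representative of `r`. -/
def dscuoRep (r : ZMod M) : ℕ := if r = 0 then M else r.val

theorem dscuoRep_le {r : ZMod M} {f : ℕ} (hf : 0 < f) (h : (f : ZMod M) = r) :
    dscuoRep M r ≤ f := by
  obtain ⟨h1, h2⟩ := dscuo_le_of_cast_eq M hf h
  unfold dscuoRep
  split_ifs with h0
  · exact h2 h0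
  · exact h1

/-- below both positive representatives the coefficients vanish. -/
theorem dscuoX_coeff_of_lt (r s : ZMod M) {n : ℕ} (h1 : n < dscuoRep M r)
    (h2 : n < dscuoRep M (-r)) : PowerSeries.coeff n (dscuoX M ζ r s) = 0 := by
  rw [dscuoX_coeff]
  apply Finset.sum_eq_zero
  intro e he
  have hn : n ≠ 0 := (Nat.mem_divisors.mp he).2
  have hdvd : e ∣ n := (Nat.mem_divisors.mp he).1
  have hfpos : 0 < n / e := Nat.div_pos (Nat.le_of_dvd (Nat.pos_of_ne_zero hn) hdvd)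
    (Nat.pos_of_dvd_of_pos hdvd (Nat.pos_of_ne_zero hn))
  have hfle : n / e ≤ n := Nat.div_le_self _ _
  rw [if_neg, if_neg, add_zero]
  · intro h
    have := dscuoRep_le M hfpos h
    omega
  · intro h
    have := dscuoRep_le M hfpos h
    omega

theorem dscuo_val_neg {r : ZMod M} (hr : r ≠ 0) : (-r).val = M - r.val := by
  rw [ZMod.neg_val, if_neg hr]

theorem dscuo_val_pos {r : ZMod M} (hr : r ≠ 0) : 0 < r.val :=
  Nat.pos_of_ne_zero fun h => hr ((ZMod.val_eq_zero r).mp h)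

theorem dscuoAbs_pos {r : ZMod M} (hr : r ≠ 0) : 0 < dscuoAbs M r := by
  have h1 := dscuo_val_pos M hr
  have h2 := ZMod.val_lt r
  unfold dscuoAbs
  omega

theorem dscuoAbs_lt (r : ZMod M) : dscuoAbs M r < M := by
  have h2 := ZMod.val_lt r
  unfold dscuoAbs
  omega

theorem dscuoAbs_neg (r : ZMod M) : dscuoAbs M (-r) = dscuoAbs M r := by
  by_cases hr : r = 0
  · simp [hr]
  · have h2 := ZMod.val_lt r
    unfold dscuoAbs
    rw [dscuo_val_neg M hr]
    omega

/-- the leading coefficient of `X_{(r,s)}`, `r ≠ 0`, sits at `t^{|r|}`. -/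
theorem dscuoX_coeff_abs (r s : ZMod M) (hr : r ≠ 0) :
    PowerSeries.coeff (dscuoAbs M r) (dscuoX M ζ r s) =
      (if r.val ≤ M - r.val then ζ ^ s.val else 0) +
        (if M - r.val ≤ r.val then ζ ^ (-s).val else 0) := by
  have hpos := dscuoAbs_pos M hr
  have hlt := dscuoAbs_lt M r
  have hrv := ZMod.val_lt r
  have hrp := dscuo_val_pos M hr
  rw [dscuoX_coeff, Finset.sum_eq_single 1]
  · simp only [Nat.div_one, Nat.cast_one, one_mul, mul_one]
    have e1 : ((dscuoAbs M r : ℕ) : ZMod M) = r ↔ r.val ≤ M - r.val := by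
      constructor
      · intro h
        have := congrArg ZMod.val h
        rw [ZMod.val_natCast, Nat.mod_eq_of_lt hlt] at this
        unfold dscuoAbs at this
        omega
      · intro h
        have : dscuoAbs M r = r.val := by unfold dscuoAbs; omega
        rw [this, ZMod.natCast_zmod_val]
    have e2 : ((dscuoAbs M r : ℕ) : ZMod M) = -r ↔ M - r.val ≤ r.val := by
      constructor
      · intro h
        have := congrArg ZMod.val h
        rw [ZMod.val_natCast, Nat.mod_eq_of_lt hlt, dscuo_val_neg M hr] at this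
        unfold dscuoAbs at this
        omega
      · intro h
        have : dscuoAbs M r = (-r).val := by
          rw [dscuo_val_neg M hr]; unfold dscuoAbs; omega
        rw [this, ZMod.natCast_zmod_val]
    simp only [e1, e2]
  · intro e he hne
    have hn : dscuoAbs M r ≠ 0 := (Nat.mem_divisors.mp he).2
    have hdvd : e ∣ dscuoAbs M r := (Nat.mem_divisors.mp he).1
    have he0 : 0 < e := Nat.pos_of_dvd_of_pos hdvd hpos
    have he2 : 2 ≤ e := by omega
    have hfpos : 0 < dscuoAbs M r / e := Nat.div_pos (Nat.le_of_dvd hpos hdvd) he0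
    have hflt : dscuoAbs M r / e < dscuoAbs M r := Nat.div_lt_self hpos he2
    rw [if_neg, if_neg, add_zero]
    · intro h
      have h1 := (dscuo_le_of_cast_eq M hfpos h).1
      rw [dscuo_val_neg M hr] at h1
      have hle2 : dscuoAbs M r ≤ M - r.val := min_le_right _ _
      omega
    · intro h
      have h1 := (dscuo_le_of_cast_eq M hfpos h).1
      have hle1 : dscuoAbs M r ≤ r.val := min_le_left _ _
      omega
  · intro h
    exact absurd (Nat.mem_divisors.mpr ⟨one_dvd _, hpos.ne'⟩) h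

theorem dscuoX_coeff_of_lt_abs (r s : ZMod M) (hr : r ≠ 0) {n : ℕ} (hn : n < dscuoAbs M r) :
    PowerSeries.coeff n (dscuoX M ζ r s) = 0 := by
  have hle1 : dscuoAbs M r ≤ r.val := min_le_left _ _
  have hle2 : dscuoAbs M r ≤ M - r.val := min_le_right _ _
  apply dscuoX_coeff_of_lt
  · unfold dscuoRep
    rw [if_neg hr]
    omega
  · unfold dscuoRep
    rw [if_neg (neg_ne_zero.mpr hr), dscuo_val_neg M hr]
    omega

theorem dscuoX_coeff_zero (r s : ZMod M) : PowerSeries.coeff 0 (dscuoX M ζ r s) = 0 := by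
  rw [dscuoX_coeff]
  simp

/-! ### units -/

section units

variable {M ζ}
variable (hζ : ζ ^ M = 1)
include hζ

theorem dscuo_isUnit_zeta : IsUnit ζ := by
  have hM : M ≠ 0 := NeZero.ne M
  refine IsUnit.of_mul_eq_one (ζ ^ (M - 1)) ?_
  rw [← pow_succ', Nat.sub_add_cancel (Nat.one_le_iff_ne_zero.mpr hM), hζ]

theorem dscuo_pow_cast (n : ℕ) : ζ ^ ((n : ZMod M).val) = ζ ^ n := by
  rw [ZMod.val_natCast]
  conv_rhs => rw [← Nat.mod_add_div n M]
  rw [pow_add, pow_mul, hζ, one_pow, mul_one]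

theorem dscuo_pow_val_neg (s : ZMod M) : ζ ^ (-s).val * ζ ^ s.val = 1 := by
  rw [← pow_add, ← dscuo_pow_cast hζ]
  simp

variable (hunit : ∀ j : ZMod M, j ≠ 0 → IsUnit (1 - ζ ^ j.val))
include hunit

theorem dscuo_isUnit_one_sub (n : ℕ) (hn : (n : ZMod M) ≠ 0) : IsUnit (1 - ζ ^ n) := by
  rw [← dscuo_pow_cast hζ]
  exact hunit _ hn

/-- `ζ^s - ζ^s'` is a unit for `s ≠ s'`. -/
theorem dscuo_isUnit_sub {s s' : ZMod M} (h : s ≠ s') : IsUnit (ζ ^ s.val - ζ ^ s'.val) := by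
  have hz := dscuo_isUnit_zeta hζ
  rcases le_total s'.val s.val with hle | hle
  · have e : ζ ^ s.val - ζ ^ s'.val = -(ζ ^ s'.val * (1 - ζ ^ (s.val - s'.val))) := by
      rw [mul_sub, mul_one, ← pow_add, Nat.add_sub_cancel' hle]
      ring
    rw [e]
    refine ((hz.pow _).mul (dscuo_isUnit_one_sub hζ hunit _ ?_)).neg
    rw [Nat.cast_sub hle, ZMod.natCast_zmod_val, ZMod.natCast_zmod_val]
    exact sub_ne_zero.mpr h
  · have e : ζ ^ s.val - ζ ^ s'.val = ζ ^ s.val * (1 - ζ ^ (s'.val - s.val)) := by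
      rw [mul_sub, mul_one, ← pow_add, Nat.add_sub_cancel' hle]
    rw [e]
    refine (hz.pow _).mul (dscuo_isUnit_one_sub hζ hunit _ ?_)
    rw [Nat.cast_sub hle, ZMod.natCast_zmod_val, ZMod.natCast_zmod_val]
    exact sub_ne_zero.mpr (Ne.symm h)

/-- `1 - ζ^s ζ^s'` is a unit for `s + s' ≠ 0`. -/
theorem dscuo_isUnit_one_sub_mul {s s' : ZMod M} (h : s + s' ≠ 0) :
    IsUnit (1 - ζ ^ s.val * ζ ^ s'.val) := by
  rw [← pow_add]
  refine dscuo_isUnit_one_sub hζ hunit _ ?_
  rw [Nat.cast_add, ZMod.natCast_zmod_val, ZMod.natCast_zmod_val]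
  exact h

end units

/-! ### the full conjugates (with the constant term for `r = 0`) -/

/-- the constant term `ζ^s/(1 - ζ^s)²` of the conjugates `(0, s)`. -/
noncomputable def dscuoC (s : ZMod M) : R := ζ ^ s.val * Ring.inverse ((1 - ζ ^ s.val) ^ 2)

/-- the formal conjugate `P_{(r,s)}` in the variable `t = q^{1/M}`:
`[r = 0] ζ^s/(1 - ζ^s)² + X_{(r,s)}`. -/
noncomputable def dscuoP (r s : ZMod M) : PowerSeries R :=
  PowerSeries.C (if r = 0 then dscuoC M ζ s else 0) + dscuoX M ζ r s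

theorem dscuoP_coeff_zero (r s : ZMod M) :
    PowerSeries.coeff 0 (dscuoP M ζ r s) = if r = 0 then dscuoC M ζ s else 0 := by
  rw [dscuoP, map_add, dscuoX_coeff_zero, add_zero, PowerSeries.coeff_zero_eq_constantCoeff_apply,
    PowerSeries.constantCoeff_C]

theorem dscuoP_coeff_of_pos (r s : ZMod M) {n : ℕ} (hn : 0 < n) :
    PowerSeries.coeff n (dscuoP M ζ r s) = PowerSeries.coeff n (dscuoX M ζ r s) := by
  rw [dscuoP, map_add, PowerSeries.coeff_C, if_neg hn.ne', zero_add]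

theorem dscuoP_of_ne (r s : ZMod M) (hr : r ≠ 0) : dscuoP M ζ r s = dscuoX M ζ r s := by
  rw [dscuoP, if_neg hr, map_zero, zero_add]

theorem dscuo_ring_id {A : Type*} [CommRing A] (a b c d : A) (k1 : c * a = 1) (k2 : d * b = 1) :
    (1 - c) * a ^ 2 - (1 - d) * b ^ 2 =
      ((1 - c) - (1 - d)) * (1 - (1 - c) * (1 - d)) * (a ^ 2 * b ^ 2) := by
  have k1' : c ^ 2 * a ^ 2 = 1 := by rw [← mul_pow, k1, one_pow]
  have k2' : d ^ 2 * b ^ 2 = 1 := by rw [← mul_pow, k2, one_pow]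
  linear_combination ((1 - d) * b ^ 2) * k1' + (-(1 - c) * a ^ 2) * k2'

section units2

variable {M ζ}
variable (hζ : ζ ^ M = 1)
include hζ

theorem dscuoC_neg (s : ZMod M) : dscuoC M ζ (-s) = dscuoC M ζ s := by
  have h1 : ζ ^ (-s).val * ζ ^ s.val = 1 := dscuo_pow_val_neg hζ s
  set x := ζ ^ s.val
  set y := ζ ^ (-s).val
  have hy : IsUnit y := IsUnit.of_mul_eq_one _ h1
  have e : (1 - y) ^ 2 = y ^ 2 * (1 - x) ^ 2 := by
    have : y ^ 2 * (1 - x) ^ 2 = (y - y * x) ^ 2 := by ring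
    rw [this, h1]
    ring
  have hinv : Ring.inverse (y ^ 2) = x ^ 2 := by
    have h2 : y ^ 2 * x ^ 2 = 1 := by rw [← mul_pow, h1, one_pow]
    have h3 : Ring.inverse (y ^ 2) * y ^ 2 = 1 := Ring.inverse_mul_cancel _ (hy.pow 2)
    calc Ring.inverse (y ^ 2) = Ring.inverse (y ^ 2) * (y ^ 2 * x ^ 2) := by rw [h2, mul_one]
      _ = x ^ 2 := by rw [← mul_assoc, h3, one_mul]
  unfold dscuoC
  rw [e, Ring.mul_inverse_rev, hinv]
  have : y * (Ring.inverse ((1 - x) ^ 2) * x ^ 2) = (y * x) * (x * Ring.inverse ((1 - x) ^ 2)) := by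
    ring
  rw [this, h1, one_mul]

/-- evenness: `P_{-v} = P_v`. -/
theorem dscuoP_neg (r s : ZMod M) : dscuoP M ζ (-r) (-s) = dscuoP M ζ r s := by
  unfold dscuoP
  rw [dscuoX_neg, dscuoC_neg hζ]
  simp only [neg_eq_zero]

variable (hunit : ∀ j : ZMod M, j ≠ 0 → IsUnit (1 - ζ ^ j.val))
include hunit

theorem dscuoC_isUnit {s : ZMod M} (hs : s ≠ 0) : IsUnit (dscuoC M ζ s) := by
  have h1 : IsUnit (1 - ζ ^ s.val) := hunit s hs
  have h2 : IsUnit ((1 - ζ ^ s.val) ^ 2) := h1.pow 2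
  obtain ⟨u, hu⟩ := h2
  unfold dscuoC
  rw [← hu, Ring.inverse_unit]
  exact ((dscuo_isUnit_zeta hζ).pow _).mul u⁻¹.isUnit

/-- `c_s - c_{s'}` is a unit for `s, s' ≠ 0`, `s ≠ ±s'`. -/
theorem dscuoC_sub_isUnit {s s' : ZMod M} (hs : s ≠ 0) (hs' : s' ≠ 0) (h1 : s ≠ s')
    (h2 : s ≠ -s') : IsUnit (dscuoC M ζ s - dscuoC M ζ s') := by
  obtain ⟨u, hu⟩ := hunit s hs
  obtain ⟨u', hu'⟩ := hunit s' hs'
  have hx : ζ ^ s.val = 1 - (u : R) := by rw [hu]; ring
  have hy : ζ ^ s'.val = 1 - (u' : R) := by rw [hu']; ring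
  have e : dscuoC M ζ s - dscuoC M ζ s' =
      (ζ ^ s.val - ζ ^ s'.val) * (1 - ζ ^ s.val * ζ ^ s'.val) *
        ((↑(u⁻¹) : R) ^ 2 * (↑(u'⁻¹) : R) ^ 2) := by
    have i1 : Ring.inverse ((1 - ζ ^ s.val) ^ 2) = (↑(u⁻¹) : R) ^ 2 := by
      rw [← hu, ← Units.val_pow_eq_pow_val, Ring.inverse_unit, ← inv_pow, Units.val_pow_eq_pow_val]
    have i2 : Ring.inverse ((1 - ζ ^ s'.val) ^ 2) = (↑(u'⁻¹) : R) ^ 2 := by
      rw [← hu', ← Units.val_pow_eq_pow_val, Ring.inverse_unit, ← inv_pow, Units.val_pow_eq_pow_val]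
    unfold dscuoC
    rw [i1, i2, hx, hy]
    exact dscuo_ring_id _ _ _ _ (Units.mul_inv u) (Units.mul_inv u')
  rw [e]
  refine ((dscuo_isUnit_sub hζ hunit h1).mul (dscuo_isUnit_one_sub_mul hζ hunit ?_)).mul
    (((u⁻¹).isUnit.pow 2).mul ((u'⁻¹).isUnit.pow 2))
  intro h
  exact h2 (eq_neg_of_add_eq_zero_left h)

end units2

/-! ### the main theorems: order and leading coefficient of `P_v - P_{v'}` -/

theorem dscuoAbs_zero : dscuoAbs M (0 : ZMod M) = 0 := by
  unfold dscuoAbs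
  rw [ZMod.val_zero]
  exact Nat.zero_min _

theorem dscuoAbs_eq_zero {r : ZMod M} (h : dscuoAbs M r = 0) : r = 0 := by
  by_contra hr
  exact (dscuoAbs_pos M hr).ne' h

/-- ORDER: below `min(|r|,|r'|)` all coefficients of `P_v - P_{v'}` vanish. -/
theorem dscuo_order (r s r' s' : ZMod M) {n : ℕ}
    (hn : n < min (dscuoAbs M r) (dscuoAbs M r')) :
    PowerSeries.coeff n (dscuoP M ζ r s - dscuoP M ζ r' s') = 0 := by
  have h1 : n < dscuoAbs M r := lt_of_lt_of_le hn (min_le_left _ _)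
  have h2 : n < dscuoAbs M r' := lt_of_lt_of_le hn (min_le_right _ _)
  have hr : r ≠ 0 := by
    rintro rfl
    rw [dscuoAbs_zero] at h1
    exact Nat.not_lt_zero _ h1
  have hr' : r' ≠ 0 := by
    rintro rfl
    rw [dscuoAbs_zero] at h2
    exact Nat.not_lt_zero _ h2
  rw [dscuoP_of_ne M ζ r s hr, dscuoP_of_ne M ζ r' s' hr', map_sub,
    dscuoX_coeff_of_lt_abs M ζ r s hr h1, dscuoX_coeff_of_lt_abs M ζ r' s' hr' h2, sub_zero]

section main

variable {M ζ}
variable (hζ : ζ ^ M = 1) (hunit : ∀ j : ZMod M, j ≠ 0 → IsUnit (1 - ζ ^ j.val))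
include hζ hunit

/-- same `r ≠ 0`: the leading coefficient of `X_{(r,s)} - X_{(r,s')}` at `t^{|r|}` is a unit. -/
theorem dscuo_lead_same {r s s' : ZMod M} (hr : r ≠ 0) (h1 : s ≠ s') (h2 : r = -r → s ≠ -s') :
    IsUnit (PowerSeries.coeff (dscuoAbs M r) (dscuoX M ζ r s - dscuoX M ζ r s')) := by
  rw [map_sub, dscuoX_coeff_abs M ζ r s hr, dscuoX_coeff_abs M ζ r s' hr]
  have hneg : -s ≠ -s' := fun h => h1 (neg_injective h)
  rcases lt_trichotomy r.val (M - r.val) with h | h | h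
  · rw [if_pos h.le, if_neg (not_le.mpr h), if_pos h.le, if_neg (not_le.mpr h), add_zero, add_zero]
    exact dscuo_isUnit_sub hζ hunit h1
  · have hrr : r = -r := by
      apply ZMod.val_injective
      rw [dscuo_val_neg M hr]
      exact h
    have h3 : s ≠ -s' := h2 hrr
    rw [if_pos h.le, if_pos h.ge, if_pos h.le, if_pos h.ge]
    have k1 : ζ ^ (-s).val * ζ ^ s.val = 1 := dscuo_pow_val_neg hζ s
    have k2 : ζ ^ (-s').val * ζ ^ s'.val = 1 := dscuo_pow_val_neg hζ s'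
    have e : ζ ^ s.val + ζ ^ (-s).val - (ζ ^ s'.val + ζ ^ (-s').val) =
        (ζ ^ s.val - ζ ^ s'.val) * (1 - ζ ^ (-s).val * ζ ^ (-s').val) := by
      linear_combination (ζ ^ (-s').val) * k1 - (ζ ^ (-s).val) * k2
    rw [e]
    refine (dscuo_isUnit_sub hζ hunit h1).mul (dscuo_isUnit_one_sub_mul hζ hunit ?_)
    intro h4
    apply h3
    have : s + s' = 0 := by
      have := congrArg Neg.neg h4
      rw [neg_add, neg_neg, neg_neg, neg_zero] at this
      exact this
    exact eq_neg_of_add_eq_zero_left this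
  · rw [if_neg (not_le.mpr h), if_pos h.le, if_neg (not_le.mpr h), if_pos h.le, zero_add, zero_add]
    exact dscuo_isUnit_sub hζ hunit hneg

omit hunit in
/-- `|r| < |r'|`: the leading coefficient of `X_{(r,s)} - X_{(r',s')}` at `t^{|r|}` is `ζ^{±s}`. -/
theorem dscuo_lead_lt {r s r' s' : ZMod M} (hr : r ≠ 0) (hr' : r' ≠ 0)
    (h : dscuoAbs M r < dscuoAbs M r') :
    IsUnit (PowerSeries.coeff (dscuoAbs M r) (dscuoX M ζ r s - dscuoX M ζ r' s')) := by
  rw [map_sub, dscuoX_coeff_abs M ζ r s hr, dscuoX_coeff_of_lt_abs M ζ r' s' hr' h, sub_zero]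
  have hz := dscuo_isUnit_zeta hζ
  have hrv := ZMod.val_lt r
  have hrv' := ZMod.val_lt r'
  have hne : r.val ≠ M - r.val := by
    unfold dscuoAbs at h
    omega
  rcases lt_or_gt_of_ne hne with h' | h'
  · rw [if_pos h'.le, if_neg (not_le.mpr h'), add_zero]
    exact hz.pow _
  · rw [if_neg (not_le.mpr h'), if_pos h'.le, zero_add]
    exact hz.pow _

/-- LEADING COEFFICIENT: for `v, v' ≠ 0`, `v ≠ ±v'` the coefficient of `P_v - P_{v'}` at
`t^{min(|r|,|r'|)}` is a unit. -/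
theorem dscuo_lead {r s r' s' : ZMod M} (hv : ¬(r = 0 ∧ s = 0)) (hv' : ¬(r' = 0 ∧ s' = 0))
    (hne : ¬(r = r' ∧ s = s')) (hne' : ¬(r = -r' ∧ s = -s')) :
    IsUnit (PowerSeries.coeff (min (dscuoAbs M r) (dscuoAbs M r'))
      (dscuoP M ζ r s - dscuoP M ζ r' s')) := by
  by_cases hr : r = 0
  · subst hr
    have hs : s ≠ 0 := fun h => hv ⟨rfl, h⟩
    rw [dscuoAbs_zero, Nat.zero_min, map_sub, dscuoP_coeff_zero, dscuoP_coeff_zero, if_pos rfl]
    by_cases hr' : r' = 0
    · subst hr'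
      have hs' : s' ≠ 0 := fun h => hv' ⟨rfl, h⟩
      rw [if_pos rfl]
      exact dscuoC_sub_isUnit hζ hunit hs hs' (fun h => hne ⟨rfl, h⟩)
        (fun h => hne' ⟨neg_zero.symm, h⟩)
    · rw [if_neg hr', sub_zero]
      exact dscuoC_isUnit hζ hunit hs
  · by_cases hr' : r' = 0
    · subst hr'
      have hs' : s' ≠ 0 := fun h => hv' ⟨rfl, h⟩
      rw [dscuoAbs_zero, Nat.min_zero, map_sub, dscuoP_coeff_zero, dscuoP_coeff_zero, if_pos rfl,
        if_neg hr, zero_sub]
      exact (dscuoC_isUnit hζ hunit hs').neg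
    · rw [dscuoP_of_ne M ζ r s hr]
      rcases lt_trichotomy (dscuoAbs M r) (dscuoAbs M r') with h | h | h
      · rw [min_eq_left h.le, dscuoP_of_ne M ζ r' s' hr']
        exact dscuo_lead_lt hζ hr hr' h
      · rw [min_eq_left h.le]
        have hrv := ZMod.val_lt r
        have hrv' := ZMod.val_lt r'
        have hp := dscuo_val_pos M hr
        have hp' := dscuo_val_pos M hr'
        have hcases : r'.val = r.val ∨ r'.val = M - r.val := by
          unfold dscuoAbs at h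
          omega
        rcases hcases with hc | hc
        · have hrr : r' = r := ZMod.val_injective M hc
          subst hrr
          rw [dscuoP_of_ne M ζ r' s' hr']
          refine dscuo_lead_same hζ hunit hr (fun h => hne ⟨rfl, h⟩) ?_
          intro h1 h2
          exact hne' ⟨h1, h2⟩
        · have hrr : r' = -r := by
            apply ZMod.val_injective
            rw [dscuo_val_neg M hr]
            exact hc
          subst hrr
          rw [← dscuoP_neg hζ (-r) s', neg_neg, dscuoP_of_ne M ζ r (-s') hr]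
          refine dscuo_lead_same hζ hunit hr (fun h => hne' ⟨(neg_neg r).symm, h⟩) ?_
          intro h1 h2
          rw [neg_neg] at h2
          exact hne ⟨h1, h2⟩
      · rw [min_eq_right h.le, dscuoP_of_ne M ζ r' s' hr']
        have := dscuo_lead_lt hζ (s := s') (s' := s) hr' hr h
        rw [map_sub] at this ⊢
        rw [← neg_sub]
        exact this.neg

/-- the special case used by Igusa: `ξ = (r, s)` of exact order `M`, `v = aξ`, `v' = bξ`,
`a, b ≠ 0`, `a ≠ ±b`: the order of `P_{aξ} - P_{bξ}` is `min(|ar|, |br|)`, with unit leading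
coefficient. -/
theorem dscuo_lead_smul {r s : ZMod M} (hξ : ∀ a : ZMod M, a * r = 0 → a * s = 0 → a = 0)
    {a b : ZMod M} (ha : a ≠ 0) (hb : b ≠ 0) (hab : a ≠ b) (hab' : a ≠ -b) :
    IsUnit (PowerSeries.coeff (min (dscuoAbs M (a * r)) (dscuoAbs M (b * r)))
      (dscuoP M ζ (a * r) (a * s) - dscuoP M ζ (b * r) (b * s))) := by
  refine dscuo_lead hζ hunit (fun h => ha (hξ a h.1 h.2)) (fun h => hb (hξ b h.1 h.2)) ?_ ?_
  · rintro ⟨h1, h2⟩
    apply hab
    have := hξ (a - b) (by rw [sub_mul, h1, sub_self]) (by rw [sub_mul, h2, sub_self])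
    exact sub_eq_zero.mp this
  · rintro ⟨h1, h2⟩
    apply hab'
    have := hξ (a + b) (by rw [add_mul, h1, neg_add_cancel]) (by rw [add_mul, h2, neg_add_cancel])
    exact eq_neg_of_add_eq_zero_left this

/-- ORDER, in `PowerSeries.order` form. -/
theorem dscuo_order_eq [Nontrivial R] {r s r' s' : ZMod M} (hv : ¬(r = 0 ∧ s = 0))
    (hv' : ¬(r' = 0 ∧ s' = 0)) (hne : ¬(r = r' ∧ s = s')) (hne' : ¬(r = -r' ∧ s = -s')) :
    PowerSeries.order (dscuoP M ζ r s - dscuoP M ζ r' s') =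
      ((min (dscuoAbs M r) (dscuoAbs M r') : ℕ) : ℕ∞) := by
  rw [PowerSeries.order_eq_nat]
  exact ⟨(dscuo_lead hζ hunit hv hv' hne hne').ne_zero,
    fun i hi => dscuo_order M ζ r s r' s' hi⟩

theorem dscuo_order_smul_eq [Nontrivial R] {r s : ZMod M}
    (hξ : ∀ a : ZMod M, a * r = 0 → a * s = 0 → a = 0)
    {a b : ZMod M} (ha : a ≠ 0) (hb : b ≠ 0) (hab : a ≠ b) (hab' : a ≠ -b) :
    PowerSeries.order (dscuoP M ζ (a * r) (a * s) - dscuoP M ζ (b * r) (b * s)) =
      ((min (dscuoAbs M (a * r)) (dscuoAbs M (b * r)) : ℕ) : ℕ∞) := by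
  rw [PowerSeries.order_eq_nat]
  exact ⟨(dscuo_lead_smul hζ hunit hξ ha hb hab hab').ne_zero,
    fun i hi => dscuo_order M ζ _ _ _ _ hi⟩

end main

/-! ### instances of the unit hypothesis -/

/-- in a field, a primitive `M`-th root of unity satisfies the unit hypothesis. -/
theorem dscuo_hunit_of_field {K : Type*} [Field K] {ζ : K} (h : IsPrimitiveRoot ζ M) :
    ∀ j : ZMod M, j ≠ 0 → IsUnit (1 - ζ ^ j.val) := by
  intro j hj
  rw [isUnit_iff_ne_zero, sub_ne_zero]
  intro h1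
  have h2 : M ∣ j.val := (h.pow_eq_one_iff_dvd _).mp h1.symm
  have h3 : j.val = 0 := Nat.eq_zero_of_dvd_of_lt h2 (ZMod.val_lt j)
  exact hj ((ZMod.val_eq_zero j).mp h3)

/-- if `∏_{0<k<M} (1 - ζ^k)` is a unit (e.g. `= M` with `M` invertible), the unit hypothesis
holds. -/
theorem dscuo_hunit_of_prod {ζ : R}
    (h : IsUnit (∏ k ∈ Finset.range (M - 1), (1 - ζ ^ (k + 1)))) :
    ∀ j : ZMod M, j ≠ 0 → IsUnit (1 - ζ ^ j.val) := by
  intro j hj
  rw [IsUnit.prod_iff] at h
  have hp := dscuo_val_pos M hj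
  have hl := ZMod.val_lt j
  have := h (j.val - 1) (Finset.mem_range.mpr (by omega))
  rwa [Nat.sub_add_cancel hp] at this

/-- in a domain in which `M` is invertible, a primitive `M`-th root of unity satisfies the unit
hypothesis. -/
theorem dscuo_hunit_of_domain [IsDomain R] {ζ : R} (h : IsPrimitiveRoot ζ M)
    (hM : IsUnit (M : R)) : ∀ j : ZMod M, j ≠ 0 → IsUnit (1 - ζ ^ j.val) := by
  apply dscuo_hunit_of_prod
  have hM1 : M - 1 + 1 = M := Nat.sub_add_cancel (Nat.one_le_iff_ne_zero.mpr (NeZero.ne M))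
  have h' : IsPrimitiveRoot ζ (M - 1 + 1) := by rwa [hM1]
  rw [IsPrimitiveRoot.prod_one_sub_pow_eq_order h']
  have : ((M - 1 : ℕ) : R) + 1 = (M : R) := by
    rw [← Nat.cast_succ, Nat.succ_eq_add_one, hM1]
  rwa [this]

/-! ### the case `s = s' = 0` (no root of unity needed): `X̃_a - X̃_b` -/

/-- `|a| = |b|` forces `a = ± b`. -/
theorem dscuoAbs_eq_iff {a b : ZMod M} (ha : a ≠ 0) (hb : b ≠ 0)
    (h : dscuoAbs M a = dscuoAbs M b) : a = b ∨ a = -b := by
  have hav := ZMod.val_lt a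
  have hbv := ZMod.val_lt b
  have hp := dscuo_val_pos M ha
  have hp' := dscuo_val_pos M hb
  have hcases : a.val = b.val ∨ a.val = M - b.val := by
    unfold dscuoAbs at h
    omega
  rcases hcases with hc | hc
  · exact Or.inl (ZMod.val_injective M hc)
  · right
    apply ZMod.val_injective
    rw [dscuo_val_neg M hb]
    exact hc

/-- the coefficient of `X̃_a - X̃_b` at `t^{|a|}` is `1` for `|a| < |b|`. -/
theorem dscuoX_zero_sub_coeff {a b : ZMod M} (ha : a ≠ 0) (hb : b ≠ 0)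
    (h : dscuoAbs M a < dscuoAbs M b) :
    PowerSeries.coeff (dscuoAbs M a) (dscuoX M ζ a 0 - dscuoX M ζ b 0) = 1 := by
  rw [map_sub, dscuoX_coeff_abs M ζ a 0 ha, dscuoX_coeff_of_lt_abs M ζ b 0 hb h, sub_zero, neg_zero,
    ZMod.val_zero, pow_zero]
  have hav := ZMod.val_lt a
  have hbv := ZMod.val_lt b
  have hne : a.val ≠ M - a.val := by
    unfold dscuoAbs at h
    omega
  rcases lt_or_gt_of_ne hne with h' | h'
  · rw [if_pos h'.le, if_neg (not_le.mpr h'), add_zero]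
  · rw [if_neg (not_le.mpr h'), if_pos h'.le, zero_add]

/-- the first nonzero coefficient of `X̃_a - X̃_b` (`a, b ≠ 0`, `a ≠ ±b`) sits at `t^{min(|a|,|b|)}`
and is `±1`. -/
theorem dscuoX_zero_sub_lead {a b : ZMod M} (ha : a ≠ 0) (hb : b ≠ 0) (h1 : a ≠ b) (h2 : a ≠ -b) :
    PowerSeries.coeff (min (dscuoAbs M a) (dscuoAbs M b)) (dscuoX M ζ a 0 - dscuoX M ζ b 0) =
      if dscuoAbs M a < dscuoAbs M b then 1 else -1 := by
  rcases lt_trichotomy (dscuoAbs M a) (dscuoAbs M b) with h | h | h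
  · rw [if_pos h, min_eq_left h.le]
    exact dscuoX_zero_sub_coeff M ζ ha hb h
  · rcases dscuoAbs_eq_iff M ha hb h with h' | h'
    · exact absurd h' h1
    · exact absurd h' h2
  · rw [if_neg (not_lt.mpr h.le), min_eq_right h.le, ← neg_sub, map_neg,
      dscuoX_zero_sub_coeff M ζ hb ha h]

theorem dscuoX_zero_sub_order (a b : ZMod M) {n : ℕ}
    (hn : n < min (dscuoAbs M a) (dscuoAbs M b)) :
    PowerSeries.coeff n (dscuoX M ζ a 0 - dscuoX M ζ b 0) = 0 := by
  have h1 : n < dscuoAbs M a := lt_of_lt_of_le hn (min_le_left _ _)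
  have h2 : n < dscuoAbs M b := lt_of_lt_of_le hn (min_le_right _ _)
  have ha : a ≠ 0 := by
    rintro rfl
    rw [dscuoAbs_zero] at h1
    exact Nat.not_lt_zero _ h1
  have hb : b ≠ 0 := by
    rintro rfl
    rw [dscuoAbs_zero] at h2
    exact Nat.not_lt_zero _ h2
  rw [map_sub, dscuoX_coeff_of_lt_abs M ζ a 0 ha h1, dscuoX_coeff_of_lt_abs M ζ b 0 hb h2, sub_zero]

/-! ### base change (reduction) -/

theorem dscuoX_map {S : Type*} [CommRing S] (f : R →+* S) (r s : ZMod M) :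
    (dscuoX M ζ r s).map f = dscuoX M (f ζ) r s := by
  ext n
  rw [PowerSeries.coeff_map, dscuoX_coeff, dscuoX_coeff, map_sum]
  apply Finset.sum_congr rfl
  intro e _
  rw [map_add]
  congr 1
  · split_ifs
    · rw [map_mul, map_natCast, map_pow]
    · rw [map_zero]
  · split_ifs
    · rw [map_mul, map_natCast, map_pow]
    · rw [map_zero]

theorem dscuoC_map {S : Type*} [CommRing S] (f : R →+* S) (s : ZMod M)
    (h : IsUnit (1 - ζ ^ s.val)) : f (dscuoC M ζ s) = dscuoC M (f ζ) s := by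
  obtain ⟨u, hu⟩ := h.pow 2
  unfold dscuoC
  have e : (1 - f ζ ^ s.val) ^ 2 = ((Units.map (f : R →* S) u : Sˣ) : S) := by
    rw [Units.coe_map, hu]
    simp
  rw [e, Ring.inverse_unit, ← hu, Ring.inverse_unit, map_mul, map_pow, ← map_inv]
  rfl

theorem dscuoP_map {S : Type*} [CommRing S] (f : R →+* S) (r s : ZMod M)
    (h : r = 0 → IsUnit (1 - ζ ^ s.val)) : (dscuoP M ζ r s).map f = dscuoP M (f ζ) r s := by
  unfold dscuoP
  rw [map_add, dscuoX_map, PowerSeries.map_C]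
  by_cases hr : r = 0
  · rw [if_pos hr, if_pos hr, dscuoC_map M ζ f s (h hr)]
  · rw [if_neg hr, if_neg hr, map_zero]

/-! ### the case `s = 0`: the integral series `X̃_r` of `DS/C/Defs` -/

/-- for `s = 0` the coefficients are those of `dscX M r` (of `DS/C/Defs.lean`), mapped to `R`. -/
theorem dscuoX_zero_coeff (r : ZMod M) (n : ℕ) :
    PowerSeries.coeff n (dscuoX M ζ r 0) =
      ((∑ e ∈ n.divisors,
        ((if ((n / e : ℕ) : ZMod M) = r then (e : ℤ) else 0) +
          (if ((n / e : ℕ) : ZMod M) = -r then (e : ℤ) else 0)) : ℤ) : R) := by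
  rw [dscuoX_coeff, Int.cast_sum]
  apply Finset.sum_congr rfl
  intro e _
  rw [neg_zero, ZMod.val_zero, Nat.zero_mul, pow_zero, mul_one, Int.cast_add]
  congr 1
  · split_ifs <;> simp
  · split_ifs <;> simp

end Fermat.Agent.DS
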