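import Fermat.Agent.DS.C.Defs
import Fermat.Agent.DS.C.U.Ord

/-!
# Program DS (S48), package (C), row C1b-ORD: order and leading coefficient of `X̃_a - X̃_b`
(`dscXR` of `DS/C/Defs.lean`, helper29), over ANY nontrivial commutative ring.  (helper2)

* `dscuoX_zero_eq` : `dscuoX M ζ r 0 = (dscX M r).map (Int.castRingHom R)`;
* `dscuo_XR_eq` : `dscXR R M r = ofPowerSeries (dscuoX M ζ r 0)`;
* `dscuo_order_ofPowerSeries` : order of the Laurent series of a power series;
* `dscuo_XR_sub_order` : `(dscXR R M a - dscXR R M b).order = min(|a|,|b|)` for `a, b ≠ 0`, `a ≠ ±b`;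
* `dscuo_XR_sub_coeff` : the coefficient there is `1` if `|a| < |b|` and `-1` otherwise;
* `dscuo_XR_sub_ne_zero`.
-/

set_option autoImplicit false

noncomputable section

namespace Fermat.Agent.DS

/-- `dscuoX M ζ r 0` is the image of the integral series `dscX M r`. -/
theorem dscuoX_zero_eq {R : Type*} [CommRing R] (M : ℕ) [NeZero M] (ζ : R) (r : ZMod M) :
    dscuoX M ζ r 0 = (dscX M r).map (Int.castRingHom R) := by
  ext n
  rw [dscuoX_zero_coeff, PowerSeries.coeff_map, dscX, PowerSeries.coeff_mk]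
  rfl

/-- `dscXR R M r` is the Laurent series of `dscuoX M ζ r 0` (any `ζ`). -/
theorem dscuo_XR_eq {R : Type*} [CommRing R] (M : ℕ) [NeZero M] (ζ : R) (r : ZMod M) :
    dscXR R M r = HahnSeries.ofPowerSeries ℤ R (dscuoX M ζ r 0) := by
  rw [dscuoX_zero_eq, dscXR]

/-- the order of the Laurent series of a power series with prescribed first nonzero coefficient. -/
theorem dscuo_order_ofPowerSeries {R : Type*} [CommRing R] (f : PowerSeries R) (n : ℕ)
    (h1 : PowerSeries.coeff n f ≠ 0) (h2 : ∀ i < n, PowerSeries.coeff i f = 0) :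
    (HahnSeries.ofPowerSeries ℤ R f).order = (n : ℤ) := by
  have hn : (HahnSeries.ofPowerSeries ℤ R f).coeff (n : ℤ) ≠ 0 := by
    rwa [HahnSeries.ofPowerSeries_apply_coeff]
  have hx : HahnSeries.ofPowerSeries ℤ R f ≠ 0 := by
    intro h
    rw [h] at hn
    exact hn rfl
  apply le_antisymm (HahnSeries.order_le_of_coeff_ne_zero hn)
  by_contra hlt
  rw [not_le] at hlt
  have hc : (HahnSeries.ofPowerSeries ℤ R f).coeff (HahnSeries.ofPowerSeries ℤ R f).order ≠ 0 :=
    fun h => hx (HahnSeries.coeff_order_eq_zero.mp h)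
  rw [PowerSeries.coeff_coe] at hc
  by_cases hneg : (HahnSeries.ofPowerSeries ℤ R f).order < 0
  · rw [if_pos hneg] at hc
    exact hc rfl
  · rw [if_neg hneg] at hc
    apply hc
    apply h2
    rw [not_lt] at hneg
    omega

/-- the coefficient of `X̃_a - X̃_b` at `q^{min(|a|,|b|)}` is `±1`. -/
theorem dscuo_XR_sub_coeff (R : Type*) [CommRing R] (M : ℕ) [NeZero M] {a b : ZMod M} (ha : a ≠ 0)
    (hb : b ≠ 0) (h1 : a ≠ b) (h2 : a ≠ -b) :
    (dscXR R M a - dscXR R M b).coeff ((min (dscuoAbs M a) (dscuoAbs M b) : ℕ) : ℤ) =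
      if dscuoAbs M a < dscuoAbs M b then 1 else -1 := by
  rw [dscuo_XR_eq M (1 : R), dscuo_XR_eq M (1 : R), ← map_sub, HahnSeries.ofPowerSeries_apply_coeff]
  exact dscuoX_zero_sub_lead M 1 ha hb h1 h2

/-- C1b-ORD : `ord_q (X̃_a - X̃_b) = min(|a|, |b|)`. -/
theorem dscuo_XR_sub_order (R : Type*) [CommRing R] [Nontrivial R] (M : ℕ) [NeZero M]
    {a b : ZMod M} (ha : a ≠ 0) (hb : b ≠ 0) (h1 : a ≠ b) (h2 : a ≠ -b) :
    (dscXR R M a - dscXR R M b).order = ((min (dscuoAbs M a) (dscuoAbs M b) : ℕ) : ℤ) := by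
  rw [dscuo_XR_eq M (1 : R), dscuo_XR_eq M (1 : R), ← map_sub]
  apply dscuo_order_ofPowerSeries
  · rw [dscuoX_zero_sub_lead M 1 ha hb h1 h2]
    split_ifs
    · exact one_ne_zero
    · exact neg_ne_zero.mpr one_ne_zero
  · intro i hi
    exact dscuoX_zero_sub_order M 1 a b hi

theorem dscuo_XR_sub_ne_zero (R : Type*) [CommRing R] [Nontrivial R] (M : ℕ) [NeZero M]
    {a b : ZMod M} (ha : a ≠ 0) (hb : b ≠ 0) (h1 : a ≠ b) (h2 : a ≠ -b) :
    dscXR R M a - dscXR R M b ≠ 0 := by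
  intro h
  have := dscuo_XR_sub_coeff R M ha hb h1 h2
  rw [h, HahnSeries.coeff_zero] at this
  split_ifs at this
  · exact one_ne_zero this.symm
  · exact neg_ne_zero.mpr one_ne_zero this.symm

end Fermat.Agent.DS
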