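import Fermat.Agent.DS.C.P.Defs
import Fermat.Agent.DS.C.U.OrdX

/-!
# Program DS (S48), package (C), row C1b-ORD: bridge from the formal conjugates of `Ord.lean` to the
`q`-expansions `dscpS M r s` of row C1a (`DS/C/P/Defs.lean`, helper22) and to `dscX` of `DS/C/Defs.lean`
(helper29).  (helper2)

* `dscuo_S_eq` : `dscpS M r s = ofPowerSeries (dscuoP M ζ_M r s)` (`ζ_M = dsw_zeta M = e^{2πi/M}`);
* `dscuo_S_sub_order`, `dscuo_S_sub_lead` : order and (nonzero) leading coefficient of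
  `dscpS M r s - dscpS M r' s'`;
(the `s = 0` statements about `dscXR` of `DS/C/Defs.lean` are in `OrdX.lean`.)
-/

set_option autoImplicit false

open Complex
open scoped Real

noncomputable section

namespace Fermat.Agent.DS

theorem dscuo_zeta_prim (M : ℕ) [NeZero M] : IsPrimitiveRoot (dsw_zeta M) M := by
  unfold dsw_zeta
  exact Complex.isPrimitiveRoot_exp M (NeZero.ne M)

theorem dscuo_zeta_pow (M : ℕ) [NeZero M] : dsw_zeta M ^ M = 1 :=
  (dscuo_zeta_prim M).pow_eq_one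

theorem dscuo_zeta_ne_zero (M : ℕ) [NeZero M] : dsw_zeta M ≠ 0 := by
  unfold dsw_zeta
  exact Complex.exp_ne_zero _

/-- `ζ^k = ζ^{(k mod M).val}` for `ζ^M = 1`. -/
theorem dscuo_zpow_eq {K : Type*} [Field K] {M : ℕ} [NeZero M] {ζ : K} (hζ : ζ ^ M = 1) (k : ℤ) :
    ζ ^ k = ζ ^ ((k : ZMod M).val) := by
  have hz : ζ ≠ 0 := by
    rintro rfl
    rw [zero_pow (NeZero.ne M)] at hζ
    exact zero_ne_one hζ
  have h1 : (((k : ZMod M).val : ℕ) : ℤ) = k % M := ZMod.val_intCast k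
  have h2 : k = (M : ℤ) * (k / M) + (((k : ZMod M).val : ℕ) : ℤ) := by
    rw [h1]
    exact (Int.mul_ediv_add_emod k M).symm
  conv_lhs => rw [h2]
  rw [zpow_add₀ hz, zpow_mul, zpow_natCast, zpow_natCast, hζ, one_zpow, one_mul]

theorem dscuo_hunit_zeta (M : ℕ) [NeZero M] :
    ∀ j : ZMod M, j ≠ 0 → IsUnit (1 - dsw_zeta M ^ j.val) :=
  dscuo_hunit_of_field M (dscuo_zeta_prim M)

theorem dscuo_E_eq (M : ℕ) [NeZero M] (s : ℤ) :
    dscpE ((s : ℂ) / M) = dscuoC M (dsw_zeta M) (s : ZMod M) := by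
  have h1 : exp (2 * π * I * ((s : ℂ) / M)) = dsw_zeta M ^ s := by
    unfold dsw_zeta
    rw [← Complex.exp_int_mul]
    congr 1
    ring
  unfold dscpE dscuoC
  rw [h1, dscuo_zpow_eq (dscuo_zeta_pow M) s, Ring.inverse_eq_inv', div_eq_mul_inv]

/-- the coefficients (`n ≥ 1`) of row C1a are those of the formal conjugate. -/
theorem dscuo_coeff_eq (M : ℕ) [NeZero M] (r s : ℤ) (n : ℕ) :
    dscpCoeff M r s n = PowerSeries.coeff n (dscuoX M (dsw_zeta M) (r : ZMod M) (s : ZMod M)) := by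
  rw [dscuoX_coeff]
  unfold dscpCoeff
  apply Finset.sum_congr rfl
  intro e _
  have hζ := dscuo_zeta_pow M
  have e1 : dsw_zeta M ^ (s * (e : ℤ)) = dsw_zeta M ^ ((s : ZMod M).val * e) := by
    rw [zpow_mul, zpow_natCast, pow_mul, dscuo_zpow_eq hζ s]
  have e2 : dsw_zeta M ^ (-(s * (e : ℤ))) = dsw_zeta M ^ ((-(s : ZMod M)).val * e) := by
    rw [← neg_mul, zpow_mul, zpow_natCast, pow_mul, dscuo_zpow_eq hζ (-s), Int.cast_neg]
  rw [e1, e2]

/-- the `q`-expansion `dscpS M r s` of row C1a is the formal conjugate `dscuoP M ζ_M r s`. -/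
theorem dscuo_S_eq (M : ℕ) [NeZero M] (r s : ℤ) :
    dscpS M r s =
      HahnSeries.ofPowerSeries ℤ ℂ (dscuoP M (dsw_zeta M) (r : ZMod M) (s : ZMod M)) := by
  unfold dscpS
  congr 1
  ext n
  rw [PowerSeries.coeff_mk]
  by_cases hn : n = 0
  · subst hn
    rw [if_pos rfl, dscuoP_coeff_zero, dscuo_E_eq]
  · rw [if_neg hn, dscuoP_coeff_of_pos _ _ _ _ (Nat.pos_of_ne_zero hn), dscuo_coeff_eq]

/-- ORDER of `dscpS M r s - dscpS M r' s'`. -/
theorem dscuo_S_sub_order (M : ℕ) [NeZero M] {r s r' s' : ℤ}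
    (hv : ¬(((r : ZMod M) = 0) ∧ ((s : ZMod M) = 0)))
    (hv' : ¬(((r' : ZMod M) = 0) ∧ ((s' : ZMod M) = 0)))
    (hne : ¬((r : ZMod M) = r' ∧ (s : ZMod M) = s'))
    (hne' : ¬((r : ZMod M) = -r' ∧ (s : ZMod M) = -s')) :
    (dscpS M r s - dscpS M r' s').order =
      ((min (dscuoAbs M (r : ZMod M)) (dscuoAbs M (r' : ZMod M)) : ℕ) : ℤ) := by
  rw [dscuo_S_eq, dscuo_S_eq, ← map_sub]
  apply dscuo_order_ofPowerSeries
  · exact (dscuo_lead (dscuo_zeta_pow M) (dscuo_hunit_zeta M) hv hv' hne hne').ne_zero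
  · intro i hi
    exact dscuo_order M _ _ _ _ _ hi

/-- LEADING COEFFICIENT of `dscpS M r s - dscpS M r' s'`. -/
theorem dscuo_S_sub_lead (M : ℕ) [NeZero M] {r s r' s' : ℤ}
    (hv : ¬(((r : ZMod M) = 0) ∧ ((s : ZMod M) = 0)))
    (hv' : ¬(((r' : ZMod M) = 0) ∧ ((s' : ZMod M) = 0)))
    (hne : ¬((r : ZMod M) = r' ∧ (s : ZMod M) = s'))
    (hne' : ¬((r : ZMod M) = -r' ∧ (s : ZMod M) = -s')) :
    (dscpS M r s - dscpS M r' s').coeff
      ((min (dscuoAbs M (r : ZMod M)) (dscuoAbs M (r' : ZMod M)) : ℕ) : ℤ) ≠ 0 := by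
  rw [dscuo_S_eq, dscuo_S_eq, ← map_sub, HahnSeries.ofPowerSeries_apply_coeff]
  exact (dscuo_lead (dscuo_zeta_pow M) (dscuo_hunit_zeta M) hv hv' hne hne').ne_zero

end Fermat.Agent.DS
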