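import Mathlib

/-!
# DS-C row C1b (core): the Weierstrass `℘`-function is injective modulo `±` and the lattice

`dscu_wp_inj` : for a period pair `L` and `a, w ∉ Λ`, `℘(a) = ℘(w)` implies `a - w ∈ Λ ∨ a + w ∈ Λ`.

Route (no σ/θ-product, no argument principle):
* `℘'' = 6℘² - g₂/2` off the lattice (derivative of Mathlib's `derivWeierstrassP_sq`);
* if `℘(a) = ℘(w)` and `℘'(a) = ℘'(w)`, then `D(z) = ℘(z+a) - ℘(z+w)` solves the linear ODE
  `D'' = 6(℘(z+a)+℘(z+w)) D`, `D(0) = D'(0) = 0`, so all its Taylor coefficients at `0` vanish;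
* identity theorem on the complement of a countable set; `a - w` is a period, hence in `Λ`
  because `℘` has a pole of order `2` exactly at the lattice points.
-/

namespace Fermat.Agent.DS

open Filter Topology

/-- The complement of a lattice is preconnected. -/
theorem dscu_isPreconnected_compl (L : PeriodPair) :
    IsPreconnected ((L.lattice : Set ℂ)ᶜ) := by
  refine (Set.Countable.isConnected_compl_of_one_lt_rank (by simp) ?_).2
  exact countable_of_Lindelof_of_discrete (X := L.lattice)

/-- Abstract uniqueness for the linear second order ODE `D'' = c D`, `D(0) = D'(0) = 0`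
(analytic data). -/
theorem dscu_ode_unique {D c : ℂ → ℂ} {x : ℂ} (hD : AnalyticAt ℂ D x) (hc : AnalyticAt ℂ c x)
    (h : ∀ᶠ z in 𝓝 x, deriv (deriv D) z = c z * D z) (h0 : D x = 0) (h1 : deriv D x = 0) :
    ∀ᶠ z in 𝓝 x, D z = 0 := by
  have key : ∀ n : ℕ, iteratedDeriv n D x = 0 := by
    intro n
    induction n using Nat.strong_induction_on with
    | _ n ih =>
      match n, ih with
      | 0, _ => simpa using h0
      | 1, _ => simpa using h1
      | (n + 2), ih =>
        rw [iteratedDeriv_succ', iteratedDeriv_succ']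
        have h' : deriv (deriv D) =ᶠ[𝓝 x] fun z => c z * D z := h
        rw [h'.iteratedDeriv_eq n]
        rw [iteratedDeriv_fun_mul hc.contDiffAt hD.contDiffAt]
        refine Finset.sum_eq_zero fun i _ => ?_
        rw [ih (n - i) (by omega), mul_zero]
  rw [← analyticOrderAt_eq_top]
  refine ENat.eq_top_iff_forall_ge.mpr fun n => ?_
  exact (natCast_le_analyticOrderAt_iff_iteratedDeriv_eq_zero hD).mpr fun i _ => key i

/-- `℘` is not constant on the complement of the lattice: `℘'` does not vanish identically. -/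
theorem dscu_derivWP_not_zero (L : PeriodPair) :
    ¬ ∀ z ∈ ((L.lattice : Set ℂ)ᶜ), L.derivWeierstrassP z = 0 := by
  intro h
  have hopen : IsOpen ((L.lattice : Set ℂ)ᶜ) := L.isClosed_lattice.isOpen_compl
  have hw : (L.ω₁ / 2) ∈ ((L.lattice : Set ℂ)ᶜ) := L.ω₁_div_two_notMem_lattice
  have hconst : ∀ z ∈ ((L.lattice : Set ℂ)ᶜ), L.weierstrassP z = L.weierstrassP (L.ω₁ / 2) := by
    intro z hz
    refine hopen.is_const_of_deriv_eq_zero (dscu_isPreconnected_compl L)
      L.differentiableOn_weierstrassP ?_ hz hw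
    intro y hy
    rw [L.deriv_weierstrassP]
    exact h y hy
  have hord := L.order_weierstrassP 0 (zero_mem _)
  have hcongr : L.weierstrassP =ᶠ[𝓝[≠] 0] fun _ => L.weierstrassP (L.ω₁ / 2) := by
    have := L.compl_lattice_sdiff_singleton_mem_nhds 0
    filter_upwards [mem_nhdsWithin_of_mem_nhds this, self_mem_nhdsWithin] with z hz hz0
    apply hconst
    intro hzl
    exact hz ⟨hzl, hz0⟩
  rw [meromorphicOrderAt_congr hcongr] at hord
  have hnn : (0 : WithTop ℤ) ≤ meromorphicOrderAt (fun _ : ℂ => L.weierstrassP (L.ω₁ / 2)) 0 :=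
    (analyticAt_const).meromorphicOrderAt_nonneg
  rw [hord] at hnn
  exact absurd hnn (by decide)

/-- `℘'' = 6 ℘² - g₂/2` off the lattice. -/
theorem dscu_deriv_derivWP (L : PeriodPair) {z : ℂ} (hz : z ∉ L.lattice) :
    deriv L.derivWeierstrassP z = 6 * L.weierstrassP z ^ 2 - L.g₂ / 2 := by
  have hopen : IsOpen ((L.lattice : Set ℂ)ᶜ) := L.isClosed_lattice.isOpen_compl
  have hP : AnalyticOnNhd ℂ L.weierstrassP ((L.lattice : Set ℂ)ᶜ) := L.analyticOnNhd_weierstrassP
  have hP' : AnalyticOnNhd ℂ L.derivWeierstrassP ((L.lattice : Set ℂ)ᶜ) :=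
    L.analyticOnNhd_derivWeierstrassP
  have hP'' : AnalyticOnNhd ℂ (deriv L.derivWeierstrassP) ((L.lattice : Set ℂ)ᶜ) := hP'.deriv
  -- the product relation
  have hmul : ∀ y ∈ ((L.lattice : Set ℂ)ᶜ), L.derivWeierstrassP y *
      (2 * deriv L.derivWeierstrassP y - 12 * L.weierstrassP y ^ 2 + L.g₂) = 0 := by
    intro y hy
    have heq : (fun z => L.derivWeierstrassP z ^ 2) =ᶠ[𝓝 y]
        fun z => 4 * L.weierstrassP z ^ 3 - L.g₂ * L.weierstrassP z - L.g₃ := by
      filter_upwards [hopen.mem_nhds hy] with z hz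
      exact L.derivWeierstrassP_sq z hz
    have hd := heq.deriv_eq
    have hdP : HasDerivAt L.weierstrassP (L.derivWeierstrassP y) y := by
      have := (hP y hy).differentiableAt.hasDerivAt
      rwa [L.deriv_weierstrassP] at this
    have hdP' : HasDerivAt L.derivWeierstrassP (deriv L.derivWeierstrassP y) y :=
      (hP' y hy).differentiableAt.hasDerivAt
    have h1 : HasDerivAt (fun z => L.derivWeierstrassP z ^ 2)
        (2 * L.derivWeierstrassP y ^ (2 - 1) * deriv L.derivWeierstrassP y) y := by
      simpa using hdP'.fun_pow 2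
    have h2 : HasDerivAt (fun z => 4 * L.weierstrassP z ^ 3 - L.g₂ * L.weierstrassP z - L.g₃)
        (4 * (3 * L.weierstrassP y ^ (3 - 1) * L.derivWeierstrassP y)
          - L.g₂ * L.derivWeierstrassP y) y := by
      simpa using (((hdP.fun_pow 3).const_mul 4).sub (hdP.const_mul L.g₂)).sub_const L.g₃
    rw [h1.deriv, h2.deriv] at hd
    norm_num at hd
    linear_combination hd
  rcases AnalyticOnNhd.eq_zero_or_eq_zero_of_mul_eq_zero hP'
      (g := fun y => 2 * deriv L.derivWeierstrassP y - 12 * L.weierstrassP y ^ 2 + L.g₂)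
      (((analyticOnNhd_const.mul hP'').sub (analyticOnNhd_const.mul (hP.pow 2))).add
        analyticOnNhd_const) hmul (dscu_isPreconnected_compl L) with h | h
  · exact absurd h (dscu_derivWP_not_zero L)
  · have := h z hz

    linear_combination this / 2

/-- If `℘` and `℘'` agree at two non-lattice points, the points differ by a lattice element. -/
theorem dscu_wp_inj_aux (L : PeriodPair) {a w : ℂ} (ha : a ∉ L.lattice) (hw : w ∉ L.lattice)
    (h : L.weierstrassP a = L.weierstrassP w)
    (h' : L.derivWeierstrassP a = L.derivWeierstrassP w) : a - w ∈ L.lattice := by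
  have hopen : IsOpen ((L.lattice : Set ℂ)ᶜ) := L.isClosed_lattice.isOpen_compl
  have hP : AnalyticOnNhd ℂ L.weierstrassP ((L.lattice : Set ℂ)ᶜ) := L.analyticOnNhd_weierstrassP
  have hP' : AnalyticOnNhd ℂ L.derivWeierstrassP ((L.lattice : Set ℂ)ᶜ) :=
    L.analyticOnNhd_derivWeierstrassP
  have hdP : ∀ y ∉ L.lattice, HasDerivAt L.weierstrassP (L.derivWeierstrassP y) y := by
    intro y hy
    have := (hP y hy).differentiableAt.hasDerivAt
    rwa [L.deriv_weierstrassP] at this
  have hdP' : ∀ y ∉ L.lattice,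
      HasDerivAt L.derivWeierstrassP (deriv L.derivWeierstrassP y) y := fun y hy =>
    (hP' y hy).differentiableAt.hasDerivAt
  -- the good set
  set U : Set ℂ := {z | z + a ∉ L.lattice ∧ z + w ∉ L.lattice} with hU
  have hUopen : IsOpen U :=
    (hopen.preimage (continuous_add_const a)).inter (hopen.preimage (continuous_add_const w))
  have hUconn : IsPreconnected U := by
    have hcount : ∀ b : ℂ, Set.Countable {z : ℂ | z + b ∈ L.lattice} := by
      intro b
      have hc : Set.Countable (L.lattice : Set ℂ) :=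
        countable_of_Lindelof_of_discrete (X := L.lattice)
      exact hc.preimage_of_injOn (f := fun z => z + b) (fun x _ y _ hxy => by simpa using hxy)
    have : U = ({z : ℂ | z + a ∈ L.lattice} ∪ {z : ℂ | z + w ∈ L.lattice})ᶜ := by
      ext z; simp [hU]
    rw [this]
    exact (Set.Countable.isConnected_compl_of_one_lt_rank (by simp)
      ((hcount a).union (hcount w))).2
  have h0U : (0 : ℂ) ∈ U := by simp [hU, ha, hw]
  -- the functions
  set D : ℂ → ℂ := fun z => L.weierstrassP (z + a) - L.weierstrassP (z + w) with hDdef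
  set c : ℂ → ℂ := fun z => 6 * (L.weierstrassP (z + a) + L.weierstrassP (z + w)) with hcdef
  have hshift : ∀ b : ℂ, ∀ z, z + b ∉ L.lattice →
      AnalyticAt ℂ (fun z => L.weierstrassP (z + b)) z := by
    intro b z hz
    have h1 : AnalyticAt ℂ (fun z : ℂ => z + b) z := by fun_prop
    exact AnalyticAt.comp_of_eq (hP (z + b) hz) h1 rfl
  have hDan : AnalyticOnNhd ℂ D U := fun z hz => (hshift a z hz.1).sub (hshift w z hz.2)
  have hcan : AnalyticOnNhd ℂ c U := fun z hz =>
    analyticAt_const.mul ((hshift a z hz.1).add (hshift w z hz.2))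
  have hD1 : ∀ z ∈ U, HasDerivAt D
      (L.derivWeierstrassP (z + a) - L.derivWeierstrassP (z + w)) z := by
    intro z hz
    exact ((hdP (z + a) hz.1).comp_add_const z a).sub ((hdP (z + w) hz.2).comp_add_const z w)
  have hD1' : ∀ z ∈ U, deriv D =ᶠ[𝓝 z]
      fun z => L.derivWeierstrassP (z + a) - L.derivWeierstrassP (z + w) := by
    intro z hz
    filter_upwards [hUopen.mem_nhds hz] with y hy
    exact (hD1 y hy).deriv
  have hD2 : ∀ z ∈ U, deriv (deriv D) z = c z * D z := by
    intro z hz
    rw [(hD1' z hz).deriv_eq]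
    have hh : HasDerivAt (fun z => L.derivWeierstrassP (z + a) - L.derivWeierstrassP (z + w))
        (deriv L.derivWeierstrassP (z + a) - deriv L.derivWeierstrassP (z + w)) z :=
      ((hdP' (z + a) hz.1).comp_add_const z a).sub ((hdP' (z + w) hz.2).comp_add_const z w)
    rw [hh.deriv, dscu_deriv_derivWP L hz.1, dscu_deriv_derivWP L hz.2]
    simp only [hcdef, hDdef]
    ring
  have hDzero : ∀ᶠ z in 𝓝 (0 : ℂ), D z = 0 := by
    refine dscu_ode_unique (hDan 0 h0U) (hcan 0 h0U) ?_ ?_ ?_
    · filter_upwards [hUopen.mem_nhds h0U] with z hz using hD2 z hz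
    · simp [hDdef, h]
    · rw [(hD1 0 h0U).deriv]; simp [h']
  have hDU : Set.EqOn D 0 U :=
    hDan.eqOn_zero_of_preconnected_of_eventuallyEq_zero hUconn h0U hDzero
  -- now `a - w` is a period
  by_contra hc0
  have hg : AnalyticAt ℂ (fun z => L.weierstrassP (z + (a - w))) 0 :=
    hshift (a - w) 0 (by simpa using hc0)
  have hcongr : L.weierstrassP =ᶠ[𝓝[≠] 0] fun z => L.weierstrassP (z + (a - w)) := by
    have h1 := L.compl_lattice_sdiff_singleton_mem_nhds 0
    have h2 : ∀ᶠ z in 𝓝 (0 : ℂ), z + (a - w) ∉ L.lattice := by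
      have hcont : ContinuousAt (fun z : ℂ => z + (a - w)) 0 := by fun_prop
      exact hcont.eventually (hopen.mem_nhds (by simpa using hc0))
    filter_upwards [mem_nhdsWithin_of_mem_nhds h1, mem_nhdsWithin_of_mem_nhds h2,
      self_mem_nhdsWithin] with z hz1 hz2 hz0
    have hzl : z ∉ L.lattice := fun hzl => hz1 ⟨hzl, hz0⟩
    have hzU : z - w ∈ U := by
      refine ⟨?_, by simpa using hzl⟩
      have : z - w + a = z + (a - w) := by ring
      rw [this]; exact hz2
    have := hDU hzU
    simp only [hDdef, Pi.zero_apply, sub_add_cancel] at this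
    have e : z - w + a = z + (a - w) := by ring
    rw [e] at this
    exact (sub_eq_zero.mp this).symm
  have hord := L.order_weierstrassP 0 (zero_mem _)
  rw [meromorphicOrderAt_congr hcongr] at hord
  have hnn := hg.meromorphicOrderAt_nonneg
  rw [hord] at hnn
  exact absurd hnn (by decide)

/-- **`℘` is injective modulo `±` and the lattice.** -/
theorem dscu_wp_inj (L : PeriodPair) {a w : ℂ} (ha : a ∉ L.lattice) (hw : w ∉ L.lattice)
    (h : L.weierstrassP a = L.weierstrassP w) : a - w ∈ L.lattice ∨ a + w ∈ L.lattice := by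
  have hsq : L.derivWeierstrassP a ^ 2 = L.derivWeierstrassP w ^ 2 := by
    rw [L.derivWeierstrassP_sq a ha, L.derivWeierstrassP_sq w hw, h]
  rcases sq_eq_sq_iff_eq_or_eq_neg.mp hsq with h' | h'
  · exact Or.inl (dscu_wp_inj_aux L ha hw h h')
  · right
    have hw' : -w ∉ L.lattice := fun hm => hw (by simpa using neg_mem hm)
    have := dscu_wp_inj_aux L ha hw' (by rw [L.weierstrassP_neg]; exact h)
      (by rw [L.derivWeierstrassP_neg]; exact h')
    simpa using this

/-- Iff version. -/
theorem dscu_wp_eq_iff (L : PeriodPair) {a w : ℂ} (ha : a ∉ L.lattice) (hw : w ∉ L.lattice) :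
    L.weierstrassP a = L.weierstrassP w ↔ (a - w ∈ L.lattice ∨ a + w ∈ L.lattice) := by
  refine ⟨dscu_wp_inj L ha hw, ?_⟩
  rintro (h | h)
  · have := L.weierstrassP_add_coe w ⟨a - w, h⟩
    simpa using this
  · have := L.weierstrassP_sub_coe w ⟨a + w, h⟩
    rw [← L.weierstrassP_neg] at this
    simpa using this

end Fermat.Agent.DS
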