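import Fermat.Agent.DS.C.P.Series
import Fermat.Agent.DS.C.U.WpInj

/-!
# DS-C row C1b: bridge between helper22's `dscpP` (C1a) and Mathlib's Weierstrass `℘`

* `dscu_tsum_inv_sq` : `∑_{n ∈ ℤ} 1/(x+n)² = (2πi)² e(x)/(1-e(x))²` for EVERY non-integer `x ∈ ℂ`
  (Mathlib has it on the upper half plane only).
* `dscu_P_sub_eq_wp` : `(2πi)² (P(w₁,z) - P(w₂,z)) = ℘(w₁) - ℘(w₂)` for the lattice `ℤ z + ℤ`.
* `dscu_P_inj` : `P(w₁,z) = P(w₂,z)` implies `w₁ ≡ ± w₂` modulo the lattice.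
-/

set_option autoImplicit false

open UpperHalfPlane hiding I
open Complex Filter Topology
open scoped Real

noncomputable section

namespace Fermat.Agent.DS

/-- summability of `1/(x+n)^2` over `ℤ`. -/
theorem dscu_summable_inv_sq (x : ℂ) : Summable fun n : ℤ => 1 / (x + n) ^ 2 := by
  have := EisensteinSeries.linear_right_summable x 1 (k := 2) le_rfl
  simpa [one_div] using this

/-- upper half plane case. -/
theorem dscu_tsum_inv_sq_uhp (z : ℍ) :
    ∑' n : ℤ, 1 / ((z : ℂ) + n) ^ 2 = (2 * π * I) ^ 2 * dscpE z := by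
  have h := EisensteinSeries.qExpansion_identity (k := 1) le_rfl z
  have hq : ‖cexp (2 * π * I * z)‖ < 1 := norm_exp_two_pi_I_lt_one z
  have h2 := (hasSum_coe_mul_geometric_of_norm_lt_one hq).tsum_eq
  simp only [pow_one] at h
  rw [h2] at h
  rw [show (1 : ℕ) + 1 = 2 from rfl] at h
  rw [h, dscpE]
  simp

theorem dscu_one_sub_exp_ne_zero {x : ℂ} (hx : x ∈ Complex.integerComplement) :
    1 - cexp (2 * π * I * x) ≠ 0 := by
  intro h
  have h1 : cexp (2 * π * I * x) = 1 := by linear_combination -h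
  rw [Complex.exp_eq_one_iff] at h1
  obtain ⟨n, hn⟩ := h1
  apply hx
  refine ⟨n, ?_⟩
  have h2 : (2 * π * I : ℂ) ≠ 0 := by simp [Real.pi_ne_zero]
  have : (2 * π * I) * x = (2 * π * I) * n := by rw [hn]; ring
  exact (mul_left_cancel₀ h2 this).symm

theorem dscu_E_continuousAt {x : ℂ} (hx : x ∈ Complex.integerComplement) :
    ContinuousAt dscpE x := by
  unfold dscpE
  have h := dscu_one_sub_exp_ne_zero hx
  refine ContinuousAt.div (by fun_prop) (by fun_prop) (pow_ne_zero 2 h)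

/-- `∑_{n ∈ ℤ} 1/(x+n)² = (2πi)² e(x)/(1-e(x))²` for every non-integer `x`. -/
theorem dscu_tsum_inv_sq {x : ℂ} (hx : x ∈ Complex.integerComplement) :
    ∑' n : ℤ, 1 / (x + n) ^ 2 = (2 * π * I) ^ 2 * dscpE x := by
  rcases lt_trichotomy 0 x.im with hpos | hzero | hneg
  · exact dscu_tsum_inv_sq_uhp ⟨x, hpos⟩
  · -- real case: limit from above
    set y : ℕ → ℂ := fun k => x + I / ((k : ℂ) + 1) with hy
    have hyim : ∀ k, 0 < (y k).im := by
      intro k
      have : (I / ((k : ℂ) + 1)).im = 1 / ((k : ℝ) + 1) := by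
        have : (I / ((k : ℂ) + 1)) = ((1 / ((k : ℝ) + 1) : ℝ) : ℂ) * I := by
          push_cast; ring
        rw [this, Complex.im_ofReal_mul, Complex.I_im, mul_one]
      simp only [hy, Complex.add_im, this, ← hzero, zero_add]
      positivity
    have hylim : Tendsto y atTop (𝓝 x) := by
      have h1 : Tendsto (fun k : ℕ => I / ((k : ℂ) + 1)) atTop (𝓝 0) := by
        have h2 : Tendsto (fun k : ℕ => (1 : ℝ) / ((k : ℝ) + 1)) atTop (𝓝 0) :=
          tendsto_one_div_add_atTop_nhds_zero_nat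
        have h3 : Tendsto (fun k : ℕ => (((1 : ℝ) / ((k : ℝ) + 1) : ℝ) : ℂ) * I) atTop (𝓝 (0 * I)) :=
          ((Complex.continuous_ofReal.tendsto 0).comp h2).mul_const I
        rw [zero_mul] at h3
        refine h3.congr fun k => ?_
        push_cast; ring
      simpa [hy] using tendsto_const_nhds.add h1
    have hL : Tendsto (fun k => ∑' n : ℤ, 1 / (y k + n) ^ 2) atTop
        (𝓝 (∑' n : ℤ, 1 / (x + n) ^ 2)) := by
      refine tendsto_tsum_of_dominated_convergence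
        (bound := fun n : ℤ => ‖1 / (x + n) ^ 2‖) (dscu_summable_inv_sq x).norm ?_ ?_
      · intro n
        have hne : x + n ≠ 0 := Complex.integerComplement_add_ne_zero hx n
        have hc : ContinuousAt (fun t : ℂ => 1 / (t + n) ^ 2) x :=
          ContinuousAt.div continuousAt_const (by fun_prop) (pow_ne_zero 2 hne)
        exact hc.tendsto.comp hylim
      · refine Eventually.of_forall fun k n => ?_
        simp only [one_div, norm_inv, norm_pow]
        have hne : x + n ≠ 0 := Complex.integerComplement_add_ne_zero hx n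
        have hle : ‖x + n‖ ≤ ‖y k + n‖ := by
          have h1 : ‖x + n‖ = |(x + n).re| := by
            have : x + n = (((x + n).re : ℝ) : ℂ) := by
              apply Complex.ext <;> simp [← hzero]
            rw [this, Complex.norm_real, Real.norm_eq_abs]; simp
          have h2 : (y k + n).re = (x + n).re := by
            have : (I / ((k : ℂ) + 1)).re = 0 := by
              have : (I / ((k : ℂ) + 1)) = ((1 / ((k : ℝ) + 1) : ℝ) : ℂ) * I := by
                push_cast; ring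
              rw [this, Complex.re_ofReal_mul, Complex.I_re, mul_zero]
            simp [hy, this]
          rw [h1, ← h2]
          exact Complex.abs_re_le_norm _
        have hpos : 0 < ‖x + n‖ := norm_pos_iff.mpr hne
        gcongr
    have hR : Tendsto (fun k => (2 * π * I) ^ 2 * dscpE (y k)) atTop
        (𝓝 ((2 * π * I) ^ 2 * dscpE x)) :=
      ((dscu_E_continuousAt hx).tendsto.comp hylim).const_mul _
    have heq : (fun k => ∑' n : ℤ, 1 / (y k + n) ^ 2) = fun k => (2 * π * I) ^ 2 * dscpE (y k) := by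
      funext k
      exact dscu_tsum_inv_sq_uhp ⟨y k, hyim k⟩
    rw [heq] at hL
    exact tendsto_nhds_unique hL hR
  · -- lower half plane: `x ↦ -x`
    have hpos : 0 < (-x).im := by simpa using hneg
    have h := dscu_tsum_inv_sq_uhp ⟨-x, hpos⟩
    rw [dscp_E_neg] at h
    rw [← h, ← (Equiv.neg ℤ).tsum_eq]
    refine tsum_congr fun n => ?_
    simp only [Equiv.neg_apply, Int.cast_neg]
    rw [show -x + (n : ℂ) = -(x + -(n : ℂ)) by ring, neg_sq]

theorem dscu_hasSum_inv_sq {x : ℂ} (hx : x ∈ Complex.integerComplement) :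
    HasSum (fun n : ℤ => 1 / (x + n) ^ 2) ((2 * π * I) ^ 2 * dscpE x) := by
  rw [← dscu_tsum_inv_sq hx]
  exact (dscu_summable_inv_sq x).hasSum

theorem dscu_not_int_of_notMem (z : ℍ) {w : ℂ} (hw : w ∉ (dsw_pair z).lattice) (m : ℤ) :
    w - m * z ∈ Complex.integerComplement := by
  rintro ⟨n, hn⟩
  apply hw
  rw [dsw_mem_lattice]
  exact ⟨m, n, by rw [hn]; ring⟩

/-- the `ℤ × ℤ`-indexed form of the difference of two values of `℘`. -/
theorem dscu_wp_sub_hasSum (z : ℍ) (w₁ w₂ : ℂ) :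
    HasSum (fun p : ℤ × ℤ => 1 / (w₁ - (p.1 * z + p.2)) ^ 2 - 1 / (w₂ - (p.1 * z + p.2)) ^ 2)
      ((dsw_pair z).weierstrassP w₁ - (dsw_pair z).weierstrassP w₂) := by
  have h := ((dsw_pair z).hasSum_weierstrassP w₁).sub ((dsw_pair z).hasSum_weierstrassP w₂)
  have h' := ((dsw_pair z).latticeEquivProd.symm.toEquiv.hasSum_iff).mpr h
  refine h'.congr_fun fun p => ?_
  simp only [Function.comp_apply, LinearEquiv.coe_toEquiv, PeriodPair.latticeEquiv_symm_apply]
  simp only [dsw_pair, mul_one]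
  ring

/-- the fibre sums. -/
theorem dscu_fibre_hasSum (z : ℍ) {w₁ w₂ : ℂ} (h₁ : w₁ ∉ (dsw_pair z).lattice)
    (h₂ : w₂ ∉ (dsw_pair z).lattice) (m : ℤ) :
    HasSum (fun n : ℤ => 1 / (w₁ - (m * z + n)) ^ 2 - 1 / (w₂ - (m * z + n)) ^ 2)
      ((2 * π * I) ^ 2 * (dscpE (w₁ - m * z) - dscpE (w₂ - m * z))) := by
  have key : ∀ w : ℂ, w ∉ (dsw_pair z).lattice →
      HasSum (fun n : ℤ => 1 / (w - (m * z + n)) ^ 2) ((2 * π * I) ^ 2 * dscpE (w - m * z)) := by
    intro w hw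
    have h := dscu_hasSum_inv_sq (dscu_not_int_of_notMem z hw m)
    have h' := ((Equiv.neg ℤ).hasSum_iff).mpr h
    refine h'.congr_fun fun n => ?_
    simp only [Function.comp_apply, Equiv.neg_apply, Int.cast_neg]
    ring
  have := (key w₁ h₁).sub (key w₂ h₂)
  rw [← mul_sub] at this
  exact this

/-- **Bridge (series form).** -/
theorem dscu_P_sub_hasSum (z : ℍ) {w₁ w₂ : ℂ} (h₁ : w₁ ∉ (dsw_pair z).lattice)
    (h₂ : w₂ ∉ (dsw_pair z).lattice) :
    HasSum (fun m : ℤ => (2 * π * I) ^ 2 * (dscpE (w₁ + m * z) - dscpE (w₂ + m * z)))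
      ((dsw_pair z).weierstrassP w₁ - (dsw_pair z).weierstrassP w₂) := by
  have h := (dscu_wp_sub_hasSum z w₁ w₂).prod_fiberwise (fun m => dscu_fibre_hasSum z h₁ h₂ m)
  have h' := ((Equiv.neg ℤ).hasSum_iff).mpr h
  refine h'.congr_fun fun m => ?_
  simp only [Function.comp_apply, Equiv.neg_apply, Int.cast_neg]
  ring_nf

/-- **Bridge.** `(2πi)² (P(w₁,z) - P(w₂,z)) = ℘(w₁) - ℘(w₂)` for the lattice `ℤ z + ℤ`
(summability of the series defining `P` = leaf P1 of row C1a, `dscp_E_summable`). -/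
theorem dscu_P_sub_eq_wp (z : ℍ) {w₁ w₂ : ℂ} (h₁ : w₁ ∉ (dsw_pair z).lattice)
    (h₂ : w₂ ∉ (dsw_pair z).lattice) :
    (2 * π * I) ^ 2 * (dscpP w₁ z - dscpP w₂ z) =
      (dsw_pair z).weierstrassP w₁ - (dsw_pair z).weierstrassP w₂ := by
  have h := (dscu_P_sub_hasSum z h₁ h₂).tsum_eq
  rw [← h, tsum_mul_left, dscpP, dscpP,
    ← (dscp_E_summable w₁ z).tsum_sub (dscp_E_summable w₂ z)]

/-- **Nonvanishing.** `P(w₁,z) = P(w₂,z)` forces `w₁ ≡ ± w₂` modulo `ℤ z + ℤ`. -/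
theorem dscu_P_inj (z : ℍ) {w₁ w₂ : ℂ} (h₁ : w₁ ∉ (dsw_pair z).lattice)
    (h₂ : w₂ ∉ (dsw_pair z).lattice) (h : dscpP w₁ z = dscpP w₂ z) :
    w₁ - w₂ ∈ (dsw_pair z).lattice ∨ w₁ + w₂ ∈ (dsw_pair z).lattice := by
  apply dscu_wp_inj (dsw_pair z) h₁ h₂
  have := dscu_P_sub_eq_wp z h₁ h₂
  rw [h, sub_self, mul_zero] at this
  exact (sub_eq_zero.mp this.symm)

/-- Leaf P5 of row C1a: `4π² P(w, z) = c(z) - ℘(w; ℤ z + ℤ)`. -/
theorem dscu_P_eq_wp (z : ℍ) : ∃ c : ℂ, ∀ w : ℂ, w ∉ (dsw_pair z).lattice →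
    4 * (π : ℂ) ^ 2 * dscpP w z = c - (dsw_pair z).weierstrassP w := by
  have h0 : ((dsw_pair z).ω₁ / 2) ∉ (dsw_pair z).lattice := (dsw_pair z).ω₁_div_two_notMem_lattice
  refine ⟨4 * (π : ℂ) ^ 2 * dscpP ((dsw_pair z).ω₁ / 2) z +
    (dsw_pair z).weierstrassP ((dsw_pair z).ω₁ / 2), fun w hw => ?_⟩
  have h := dscu_P_sub_eq_wp z hw h0
  have e : (2 * (π : ℂ) * I) ^ 2 = -(4 * (π : ℂ) ^ 2) := by
    rw [mul_pow, mul_pow, Complex.I_sq]; ring
  rw [e] at h
  linear_combination -h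

end Fermat.Agent.DS
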